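import Mathlib

/-!
# S28: a Gauss-lemma argument (generic, no dependence on the rest).  Owner: helper19.

`isIntegral_of_scaled`: inside a field `L`, let `R₀, R ≤ K` be subrings of a subfield `K`, both
integrally closed in `K`, and let `𝒪 ⊇ R₀` be a subring of `L` such that `R ∩ p𝒪 = pR`
(in the form: `a ∈ R`, `x ∈ 𝒪`, `a = p x` imply `x ∈ R`).  If `y ∈ L` is such that `b y` is integral
over `R₀` for some `b ∈ R₀` invertible in `𝒪`, and `p y` is integral over `R`, then `y` is integral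
over `R`.  (Proof: the coefficients `m_i` of `minpoly K y` satisfy `m_i b^(r-i) ∈ R₀`, so
`m_i ∈ 𝒪`, and `m_i p^(r-i) ∈ R`, so `m_i ∈ R`.)
-/

set_option autoImplicit false

noncomputable section

namespace Fermat.Agent.S28

open Polynomial

/-- The coefficients of the minimal polynomial over `K` of an element `y` with `s y` integral over
an integrally closed (in `K`) subring `R ≤ K`: `m_i s^(r - i) ∈ R`. -/
theorem GaussAux.coeff_mul_pow_mem {L : Type*} [Field L] (R : Subring L) (K : Subfield L)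
    (hRK : R ≤ K.toSubring)
    (hR : ∀ x : L, x ∈ K → IsIntegral R x → x ∈ R)
    (y s : L) (hs : s ∈ K) (hs0 : s ≠ 0) (hy : IsIntegral R (s * y)) (i : ℕ) :
    (((minpoly K y).coeff i : K) : L) * s ^ ((minpoly K y).natDegree - i) ∈ R := by
  letI algRK : Algebra R K := (Subring.inclusion hRK).toAlgebra
  haveI tower : IsScalarTower R K L := IsScalarTower.of_algebraMap_eq (fun x => rfl)
  set sK : K := ⟨s, hs⟩ with hsK
  have hsK0 : sK ≠ 0 := fun h => hs0 (congrArg Subtype.val h)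
  obtain ⟨f, hf, hfy⟩ := hy
  set f' : K[X] := f.map (algebraMap R K) with hf'
  have hf'y : aeval (s * y) f' = 0 := by
    rw [hf', aeval_def, eval₂_map, ← IsScalarTower.algebraMap_eq]
    exact hfy
  -- `y` is a root of `h := scaleRoots f' s⁻¹`
  have hh : aeval y (scaleRoots f' sK⁻¹) = 0 := by
    have h1 := scaleRoots_aeval_eq_zero (r := sK⁻¹) hf'y
    have h2 : algebraMap K L sK⁻¹ * (s * y) = y := by
      have : algebraMap K L sK⁻¹ = s⁻¹ := by
        rw [map_inv₀]; rfl
      rw [this, ← mul_assoc, inv_mul_cancel₀ hs0, one_mul]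
    rwa [h2] at h1
  have hdvd1 : minpoly K y ∣ scaleRoots f' sK⁻¹ := minpoly.dvd K y hh
  have hdvd2 : scaleRoots (minpoly K y) sK ∣ f' := by
    have h3 := scaleRoots_dvd (minpoly K y) (scaleRoots f' sK⁻¹) (r := sK) hdvd1
    rwa [← scaleRoots_mul, inv_mul_cancel₀ hsK0, scaleRoots_one] at h3
  have hyK : IsIntegral K y := by
    have hfmonic : (scaleRoots f' sK⁻¹).Monic := (monic_scaleRoots_iff _).mpr (hf.map _)
    exact ⟨scaleRoots f' sK⁻¹, hfmonic, by rwa [aeval_def] at hh⟩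
  have hmonic : (scaleRoots (minpoly K y) sK).Monic :=
    (monic_scaleRoots_iff _).mpr (minpoly.monic hyK)
  have hlift := integralClosure.mem_lifts_of_monic_of_dvd_map K hf hmonic hdvd2
  rw [lifts_iff_coeff_lifts] at hlift
  obtain ⟨c, hc⟩ := hlift i
  have hcint : IsIntegral R ((scaleRoots (minpoly K y) sK).coeff i) := by
    rw [← hc]
    exact c.2
  have hcintL : IsIntegral R (algebraMap K L ((scaleRoots (minpoly K y) sK).coeff i)) :=
    hcint.algebraMap
  have hmem := hR _ ((scaleRoots (minpoly K y) sK).coeff i).2 hcintL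
  have heq : (((scaleRoots (minpoly K y) sK).coeff i : K) : L) =
      (((minpoly K y).coeff i : K) : L) * s ^ ((minpoly K y).natDegree - i) := by
    rw [coeff_scaleRoots]
    rfl
  rw [heq] at hmem
  exact hmem

/-- See the header. -/
theorem isIntegral_of_scaled {L : Type*} [Field L] (R₀ R 𝒪 : Subring L) (K : Subfield L)
    (hR₀K : R₀ ≤ K.toSubring) (hRK : R ≤ K.toSubring)
    (hR₀ : ∀ x : L, x ∈ K → IsIntegral R₀ x → x ∈ R₀)
    (hR : ∀ x : L, x ∈ K → IsIntegral R x → x ∈ R)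
    (hR₀𝒪 : R₀ ≤ 𝒪)
    (p : L) (hp : p ∈ R) (hp𝒪 : p ∈ 𝒪) (hp0 : p ≠ 0)
    (hdiv : ∀ a : L, a ∈ R → ∀ x : L, x ∈ 𝒪 → a = p * x → x ∈ R)
    (y b : L) (hb : b ∈ R₀) (hb0 : b ≠ 0) (hbinv : b⁻¹ ∈ 𝒪)
    (hby : IsIntegral R₀ (b * y)) (hpy : IsIntegral R (p * y)) :
    IsIntegral R y := by
  letI algRK : Algebra R K := (Subring.inclusion hRK).toAlgebra
  haveI tower : IsScalarTower R K L := IsScalarTower.of_algebraMap_eq (fun x => rfl)
  have hpK : p ∈ K := hRK hp
  have hbK : b ∈ K := hR₀K hb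
  -- all coefficients of `m := minpoly K y` lie in `𝒪`
  have h𝒪 : ∀ i, (((minpoly K y).coeff i : K) : L) ∈ 𝒪 := by
    intro i
    have h1 := GaussAux.coeff_mul_pow_mem R₀ K hR₀K hR₀ y b hbK hb0 hby i
    have h2 : (((minpoly K y).coeff i : K) : L) =
        ((((minpoly K y).coeff i : K) : L) * b ^ ((minpoly K y).natDegree - i)) *
          b⁻¹ ^ ((minpoly K y).natDegree - i) := by
      rw [mul_assoc, ← mul_pow, mul_inv_cancel₀ hb0, one_pow, mul_one]
    rw [h2]
    exact 𝒪.mul_mem (hR₀𝒪 h1) (𝒪.pow_mem hbinv _)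
  -- all coefficients lie in `R`
  have key : ∀ (k : ℕ) (x : L), x ∈ 𝒪 → x * p ^ k ∈ R → x ∈ R := by
    intro k
    induction k with
    | zero => intro x _ hx; simpa using hx
    | succ k ih =>
      intro x hx hxp
      have h1 : x * p ^ k ∈ R := by
        refine hdiv (x * p ^ (k + 1)) hxp (x * p ^ k) (𝒪.mul_mem hx (𝒪.pow_mem hp𝒪 k)) ?_
        ring
      exact ih x hx h1
  have hRcoef : ∀ i, (((minpoly K y).coeff i : K) : L) ∈ R := by
    intro i
    exact key _ _ (h𝒪 i) (GaussAux.coeff_mul_pow_mem R K hRK hR y p hpK hp0 hpy i)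
  -- lift the minimal polynomial to `R[X]`
  have hlifts : minpoly K y ∈ lifts (algebraMap R K) := by
    rw [lifts_iff_coeff_lifts]
    intro i
    exact ⟨⟨_, hRcoef i⟩, Subtype.ext rfl⟩
  have hyK : IsIntegral K y := by
    -- from integrality of `p * y` over `R`
    have h1 : IsIntegral K (p * y) := hpy.tower_top
    have h2 : IsIntegral K ((⟨p, hpK⟩ : K)⁻¹ • (p * y)) := h1.smul _
    have h3 : ((⟨p, hpK⟩ : K)⁻¹ • (p * y) : L) = y := by
      show ((⟨p, hpK⟩ : K)⁻¹ : K) * (p * y) = y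
      have : (((⟨p, hpK⟩ : K)⁻¹ : K) : L) = p⁻¹ := by
        rw [Subfield.coe_inv]
      rw [this, ← mul_assoc, inv_mul_cancel₀ hp0, one_mul]
    rwa [h3] at h2
  obtain ⟨q, hq, -, hqmonic⟩ :=
    lifts_and_natDegree_eq_and_monic hlifts (minpoly.monic hyK)
  refine ⟨q, hqmonic, ?_⟩
  have h4 : eval₂ (algebraMap R L) y q = aeval y (q.map (algebraMap R K)) := by
    rw [aeval_def, eval₂_map, ← IsScalarTower.algebraMap_eq]
  rw [h4, hq, minpoly.aeval]

end Fermat.Agent.S28
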